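import Fermat.Agent.StarkEffective.Main
import Mathlib.LinearAlgebra.FreeModule.Finite.Quotient

/-!
# Two quadratic fields and their compositum

The compositum `M` of two quadratic fields is unramified outside `d₁ d₂`, so
`|d_M| ≤ (4 |d₁ d₂|)^4`; a zero close to `1` of both zeta functions forces the fields to be equal.
-/

set_option autoImplicit false
set_option linter.style.haveILetI false

noncomputable section

open NumberField Module Set
open FA.HeckeBS FA.StarkZero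
open scoped Real Classical

namespace FA.Tatuzawa

local notation "Qb" => AlgebraicClosure ℚ

/-- Every embedding of a subfield of a normal field lifts to it. -/
theorem exists_lift {E M : Type} [Field E] [NumberField E] [Field M] [NumberField M] [IsGalois ℚ M]
    (i : E →ₐ[ℚ] M) (ι : M →ₐ[ℚ] Qb) (g : E →ₐ[ℚ] Qb) : ∃ h : E →ₐ[ℚ] M, ι.comp h = g := by
  obtain ⟨α, hα⟩ := Field.exists_primitive_element ℚ E
  have hint : IsIntegral ℚ α := Algebra.IsIntegral.isIntegral α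
  have htop : Algebra.adjoin ℚ ({α} : Set E) = ⊤ := by
    rw [← IntermediateField.adjoin_simple_toSubalgebra_of_isAlgebraic hint.isAlgebraic, hα,
      IntermediateField.top_toSubalgebra]
  have hp : minpoly ℚ (i α) = minpoly ℚ α := minpoly.algHom_eq i i.injective α
  have hsplit := Normal.splits (F := ℚ) (K := M) inferInstance (i α)
  rw [hp] at hsplit
  have hmem : g α ∈ (minpoly ℚ α).rootSet Qb := Polynomial.mem_rootSet.2
    ⟨minpoly.ne_zero hint, by rw [Polynomial.aeval_algHom_apply, minpoly.aeval, map_zero]⟩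
  rw [← hsplit.image_rootSet ι] at hmem
  obtain ⟨r, hr, hrg⟩ := hmem
  let pb := PowerBasis.ofAdjoinEqTop' hint htop
  have hgen : pb.gen = α := PowerBasis.ofAdjoinEqTop'_gen hint htop
  have hr' : Polynomial.aeval r (minpoly ℚ pb.gen) = 0 := by
    rw [hgen]; exact (Polynomial.mem_rootSet.1 hr).2
  refine ⟨pb.lift r hr', AlgHom.ext_of_adjoin_eq_top htop fun x hx => ?_⟩
  have hl : pb.lift r hr' α = r := (congrArg (pb.lift r hr') hgen).symm.trans (pb.lift_gen r hr')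
  rw [Set.mem_singleton_iff.1 hx, AlgHom.comp_apply, hl]
  exact hrg

theorem normal_of_two (F : IntermediateField ℚ ℂ) (hF : finrank ℚ F = 2) : Normal ℚ F :=
  haveI : Algebra.IsQuadraticExtension ℚ F := ⟨hF⟩
  inferInstance

variable {F₁ F₂ : IntermediateField ℚ ℂ} [NumberField F₁] [NumberField F₂]

/-- **The compositum.** -/
theorem compositum_bound (h₁ : finrank ℚ F₁ = 2) (h₂ : finrank ℚ F₂ = 2) :
    ∃ (_ : NumberField ↥(F₁ ⊔ F₂)) (_ : IsGalois ℚ ↥(F₁ ⊔ F₂)), finrank ℚ ↥(F₁ ⊔ F₂) ≤ 4 ∧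
      (discr ↥(F₁ ⊔ F₂)).natAbs ≤ (4 * ((discr F₁).natAbs * (discr F₂).natAbs)) ^ 4 := by
  haveI := normal_of_two F₁ h₁
  haveI := normal_of_two F₂ h₂
  haveI hfin : FiniteDimensional ℚ ↥(F₁ ⊔ F₂) := inferInstance
  haveI : NumberField ↥(F₁ ⊔ F₂) := NumberField.mk
  haveI n₁ : @Normal ℚ F₁ _ _ F₁.algebra' := by
    convert normal_of_two F₁ h₁ using 1
    exact Subsingleton.elim _ _
  haveI n₂ : @Normal ℚ F₂ _ _ F₂.algebra' := by
    convert normal_of_two F₂ h₂ using 1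
    exact Subsingleton.elim _ _
  have n₃ := @IntermediateField.normal_sup ℚ ℂ _ _ _ F₁ F₂ n₁ n₂
  haveI : Normal ℚ ↥(F₁ ⊔ F₂) := by
    convert n₃ using 1
    exact Subsingleton.elim _ _
  haveI : IsGalois ℚ ↥(F₁ ⊔ F₂) := IsGalois.mk
  have hdeg : finrank ℚ ↥(F₁ ⊔ F₂) ≤ 4 := by
    have h := IntermediateField.finrank_sup_le F₁ F₂
    rw [h₁, h₂] at h
    exact h
  refine ⟨inferInstance, inferInstance, hdeg, ?_⟩
  let i₁ : F₁ →ₐ[ℚ] ↥(F₁ ⊔ F₂) := IntermediateField.inclusion le_sup_left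
  let i₂ : F₂ →ₐ[ℚ] ↥(F₁ ⊔ F₂) := IntermediateField.inclusion le_sup_right
  set d := (discr F₁).natAbs * (discr F₂).natAbs with hd
  have hd0 : 0 < d := Nat.mul_pos (Int.natAbs_pos.2 (discr_ne_zero F₁)) (Int.natAbs_pos.2 (discr_ne_zero F₂))
  have hun : ∀ (q : ℕ) (P : Ideal (𝓞 ↥(F₁ ⊔ F₂))) [P.IsMaximal], q.Prime → q ∉ d.primeFactors →
      (q : 𝓞 ↥(F₁ ⊔ F₂)) ∈ P → Algebra.IsUnramifiedAt ℤ P := fun q P _ hq hqd hqP => by
    refine FA.BSDegree.isUnramifiedAt_of_inertia hq P hqP fun τ hτ => ?_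
    have hfix : ∀ (E : IntermediateField ℚ ℂ) [NumberField E] (i : E →ₐ[ℚ] ↥(F₁ ⊔ F₂)),
        (discr E).natAbs ∣ d → τ.toAlgHom.comp i = i := fun E _ i hdvdE => by
      refine FA.BSDegree.comp_eq_of_inertia E (exists_lift i) (fun hmem => ?_) τ hτ i
      have hcop : IsCoprime (q : ℤ) (discr E) := Int.isCoprime_iff_gcd_eq_one.2 (by
        rw [Int.gcd_eq_natAbs, Int.natAbs_natCast]
        exact (Nat.Prime.coprime_iff_not_dvd hq).2 fun hdvd =>
          hqd (Nat.mem_primeFactors.2 ⟨hq, hdvd.trans hdvdE, hd0.ne'⟩))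
      obtain ⟨a, b, hab⟩ := hcop
      refine Ideal.IsMaximal.ne_top (inferInstance : P.IsMaximal) ((Ideal.eq_top_iff_one P).2 ?_)
      have h1 : ((a * q + b * discr E : ℤ) : 𝓞 ↥(F₁ ⊔ F₂)) ∈ P := by
        push_cast
        exact P.add_mem (P.mul_mem_left _ hqP) (P.mul_mem_left _ hmem)
      simpa [hab] using h1
    have e₁ := hfix F₁ i₁ (dvd_mul_right _ _)
    have e₂ := hfix F₂ i₂ (dvd_mul_left _ _)
    set T : IntermediateField ℚ ↥(F₁ ⊔ F₂) := IntermediateField.fixedField (Subgroup.zpowers τ)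
    have hmemT : ∀ x, τ x = x → x ∈ T := fun x hx => by
      rw [IntermediateField.mem_fixedField_iff]
      intro g hg
      obtain ⟨k, rfl⟩ := Subgroup.mem_zpowers_iff.1 hg
      exact (Subgroup.zpow_mem (MulAction.stabilizer _ x) (show τ ∈ MulAction.stabilizer _ x from hx) k : _)
    have hle : F₁ ⊔ F₂ ≤ T.map (F₁ ⊔ F₂).val := sup_le
      (fun x hx => ⟨i₁ ⟨x, hx⟩, hmemT _ (DFunLike.congr_fun e₁ ⟨x, hx⟩), rfl⟩)
      (fun x hx => ⟨i₂ ⟨x, hx⟩, hmemT _ (DFunLike.congr_fun e₂ ⟨x, hx⟩), rfl⟩)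
    refine AlgEquiv.ext fun x => ?_
    obtain ⟨y, hy, hyx⟩ := hle x.2
    obtain rfl : y = x := Subtype.ext hyx
    exact IntermediateField.mem_fixedField_iff _ _ |>.1 hy τ (Subgroup.mem_zpowers τ)
  refine (FA.Faltings.natAbs_discr_le (K := ↥(F₁ ⊔ F₂))
    (fun q hq => Nat.prime_of_mem_primeFactors hq) hun).trans ?_
  exact (Nat.pow_le_pow_left (Nat.mul_le_mul hdeg (Nat.le_of_dvd hd0 (Nat.prod_primeFactors_dvd d))) _).trans
    (Nat.pow_le_pow_right (Nat.mul_pos (by norm_num) hd0) hdeg)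

/-- The width of the Landau–Page zone, times `1 + log |d₁| + log |d₂|`. -/
def pageC : ℝ := (Finset.range 5).inf' ⟨0, Finset.mem_range.2 (by norm_num)⟩ starkC / 8

theorem pageC_pos : 0 < pageC := div_pos ((Finset.lt_inf'_iff _).2 fun m _ => starkC_pos m) (by norm_num)

theorem pageC_le : pageC ≤ 1 / 2400 := by
  have h : (Finset.range 5).inf' ⟨0, Finset.mem_range.2 (by norm_num)⟩ starkC ≤ starkC 0 :=
    Finset.inf'_le _ (Finset.mem_range.2 (by norm_num))
  have h0 := starkC_div_le (le_refl (1 : ℝ)) 0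
  rw [div_one] at h0
  rw [pageC]
  linarith

/-- **Landau–Page**: only one of two quadratic fields has a zero very close to `1`. -/
theorem landau_page (h₁ : finrank ℚ F₁ = 2) (h₂ : finrank ℚ F₂ = 2) {β₁ β₂ : ℝ}
    (hb₁ : β₁ ∈ Icc (1 - pageC / (size F₁ + size F₂)) 1)
    (hb₂ : β₂ ∈ Icc (1 - pageC / (size F₁ + size F₂)) 1)
    (z₁ : xiFun F₁ (β₁ : ℂ) = 0) (z₂ : xiFun F₂ (β₂ : ℂ) = 0) : F₁ = F₂ := by
  obtain ⟨_, _, hdeg, hd⟩ := compositum_bound h₁ h₂
  set M := F₁ ⊔ F₂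
  have hL₁ := one_le_size (K := F₁)
  have hL₂ := one_le_size (K := F₂)
  set a := (Finset.range 5).inf' ⟨0, Finset.mem_range.2 (by norm_num)⟩ starkC
  have ha : a ≤ starkC (finrank ℚ M) := Finset.inf'_le _ (Finset.mem_range.2 (by omega))
  have hLM : size M ≤ 8 * (size F₁ + size F₂) := by
    have hh := Real.log_le_log (Nat.cast_pos.2 (Int.natAbs_pos.2 (discr_ne_zero M)))
      (Nat.cast_le (α := ℝ).2 hd)
    push_cast at hh
    have p1 : (0 : ℝ) < (discr F₁).natAbs := Nat.cast_pos.2 (Int.natAbs_pos.2 (discr_ne_zero F₁))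
    have p2 : (0 : ℝ) < (discr F₂).natAbs := Nat.cast_pos.2 (Int.natAbs_pos.2 (discr_ne_zero F₂))
    rw [Real.log_pow, Real.log_mul (by norm_num) (mul_pos p1 p2).ne', Real.log_mul p1.ne' p2.ne'] at hh
    have h4 : Real.log 4 ≤ 3 := by
      have := Real.log_le_sub_one_of_pos (show (0 : ℝ) < 4 by norm_num); linarith
    simp only [size] at hL₁ hL₂ ⊢
    push_cast at hh
    linarith
  have hzone : ∀ β ∈ Icc (1 - pageC / (size F₁ + size F₂)) 1,
      β ∈ Icc (1 - starkC (finrank ℚ M) / size M) 1 := fun β hβ => by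
    refine ⟨le_trans (sub_le_sub_left ?_ 1) hβ.1, hβ.2⟩
    rw [pageC, div_div]
    exact div_le_div₀ (starkC_pos _).le ha (zero_lt_one.trans_le one_le_size) hLM
  have hpos : 0 < β₁ ∧ 0 < β₂ := by
    have h : pageC / (size F₁ + size F₂) ≤ 1 / 2400 :=
      (div_le_self pageC_pos.le (by linarith)).trans pageC_le
    exact ⟨by linarith [hb₁.1], by linarith [hb₂.1]⟩
  let i₁ : F₁ →ₐ[ℚ] M := IntermediateField.inclusion le_sup_left
  let i₂ : F₂ →ₐ[ℚ] M := IntermediateField.inclusion le_sup_right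
  have hre : ∀ β : ℝ, 0 < β → 0 < ((β : ℂ)).re := fun β hβ => by simpa using hβ
  have hz : ∀ (F : IntermediateField ℚ ℂ) [NumberField F] (i : F →ₐ[ℚ] M) (β : ℝ), 0 < β →
      finrank ℚ F = 2 → xiFun F (β : ℂ) = 0 → xiFun M (β : ℂ) = 0 := fun F _ i β _ hF hz => by
    letI : Algebra F M := i.toRingHom.toAlgebra
    haveI : IsScalarTower ℚ F M := IsScalarTower.of_algebraMap_eq fun q => (i.commutes q).symm
    haveI : IsGalois F M := IsGalois.tower_top_of_isGalois ℚ F M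
    exact xiFun_eq_zero_of_galois F M hz
  have hzM₁ := hz F₁ i₁ β₁ hpos.1 h₁ z₁
  have hzM₂ := hz F₂ i₂ β₂ hpos.2 h₂ z₂
  obtain rfl : β₁ = β₂ := zero_unique M (hzone _ hb₁) (hzone _ hb₂) hzM₁ hzM₂
  have hlt : β₁ < 1 := lt_of_le_of_ne hb₁.2 fun e => by
    rw [e, Complex.ofReal_one, xiFun_one] at hzM₁
    exact (polarR_pos M).ne' (Complex.ofReal_eq_zero.1 hzM₁)
  obtain ⟨Q, hQ, -, hle⟩ :=
    exists_quadratic_subfield hpos.1 hlt hzM₁ (zero_simple M (hzone _ hb₁) hzM₁)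
  have key : ∀ (F : IntermediateField ℚ ℂ) [NumberField F] (i : F →ₐ[ℚ] M), finrank ℚ F = 2 →
      xiFun F (β₁ : ℂ) = 0 → i.fieldRange = Q := fun F _ i hF hzF => by
    have e := AlgEquiv.ofInjectiveField i
    have hfr : finrank ℚ i.fieldRange = 2 := by rw [← hF]; exact e.toLinearEquiv.finrank_eq.symm
    haveI : FiniteDimensional ℚ i.fieldRange := FiniteDimensional.of_finrank_pos (by omega)
    exact (IntermediateField.eq_of_le_of_finrank_eq
      (hle _ (FA.StarkEff.xiFun_eq_zero_congr e.toRingEquiv (hre _ hpos.1) hzF)) (by rw [hQ, hfr])).symm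
  have he : i₁.fieldRange = i₂.fieldRange := (key F₁ i₁ h₁ z₁).trans (key F₂ i₂ h₂ z₂).symm
  have hm : ∀ (F : IntermediateField ℚ ℂ) (hF : F ≤ M),
      (IntermediateField.inclusion hF).fieldRange.map M.val = F := fun F hF => by
    ext x
    simp only [IntermediateField.mem_map, AlgHom.mem_fieldRange]
    constructor
    · rintro ⟨_, ⟨y, rfl⟩, rfl⟩; exact y.2
    · exact fun hx => ⟨_, ⟨⟨x, hx⟩, rfl⟩, rfl⟩
  exact (hm F₁ le_sup_left).symm.trans
    ((congrArg (fun S => IntermediateField.map M.val S) he).trans (hm F₂ le_sup_right))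

end FA.Tatuzawa
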