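import Fermat.Agent.Tatuzawa.Biquadratic

/-!
# Tatuzawa's theorem

With `e = ε / 10` let `F₁` have the least discriminant among the quadratic fields with a zero in
`[1 - e, 1]`. For another field `F` with such a zero either `F₁`'s zero is within `η` of `1`, so
`F` has none there by Landau–Page, or it is not, and then the compositum, which has it, gives the
bound for `F`. All constants are explicit.
-/

set_option autoImplicit false
set_option linter.style.haveILetI false

noncomputable section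

open NumberField InfinitePlace Module Set
open FA.HeckeBS FA.StarkZero FA.StarkEff
open scoped Real Classical

namespace FA.Tatuzawa

/-- The constant of Tatuzawa's theorem. -/
def tatC (ε : ℝ) : ℝ :=
  min (1 / 2 * (ε / 10) * gammaC 2)
    (min (pageC * (ε / 10) * gammaC 2 / 8)
      (pageC * (ε / 10) * gammaC 4 / (4 * 132 * 256 * edgeConst 4 (1 + ε / 10))))

theorem tatC_pos {ε : ℝ} (hε : 0 < ε) : 0 < tatC ε := by
  have := gammaC_pos 2
  have := gammaC_pos 4
  have := pageC_pos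
  have := edgeConst_pos 4 (show 1 < 1 + ε / 10 by linarith)
  unfold tatC; positivity

theorem gammaC_anti {m n : ℕ} (h : m ≤ n) : gammaC n ≤ gammaC m := heckeConst_anti h

theorem natAbs_cast (z : ℤ) : ((z.natAbs : ℕ) : ℝ) = |(z : ℝ)| := by
  rw [← Int.cast_abs, ← Int.natCast_natAbs, Int.cast_natCast]

/-- A field without zero in `[1 - x, 1]`. -/
theorem hR_ge_of_gap {F : Type} [Field F] [NumberField F] (hF : finrank ℚ F = 2) {x : ℝ} (hx0 : 0 < x)
    (hx : x ≤ 1 / 2) (h : ∀ y ∈ Icc (1 - x) 1, xiFun F (y : ℂ) ≠ 0) :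
    1 / 2 * x * gammaC 2 * |((discr F : ℤ) : ℝ)| ^ ((1 - x) / 2) ≤ hR F := by
  refine le_trans ?_ (hR_lower_of_no_zero F (x := 1 - x) (by linarith) (by linarith) h)
  rw [hF, sub_sub_cancel]
  exact mul_le_mul_of_nonneg_right (mul_le_mul_of_nonneg_right
    (mul_le_mul_of_nonneg_right (by linarith) hx0.le) (gammaC_pos 2).le)
    (Real.rpow_nonneg (abs_nonneg _) _)

/-- **Tatuzawa.** -/
theorem exists_exception {ε : ℝ} (hε : 0 < ε) (hε2 : ε ≤ 1 / 2) :
    ∃ F₁ : IntermediateField ℚ ℂ, ∀ (F : IntermediateField ℚ ℂ) [NumberField F], finrank ℚ F = 2 →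
      F ≠ F₁ → tatC ε * |((discr F : ℤ) : ℝ)| ^ (1 / 2 - ε) ≤ hR F := by
  set e := ε / 10 with he'
  have he : 0 < e := by positivity
  have he20 : e ≤ 1 / 20 := by linarith
  have hgap : ∀ (F : IntermediateField ℚ ℂ) [NumberField F], finrank ℚ F = 2 →
      (∀ y ∈ Icc (1 - e) 1, xiFun F (y : ℂ) ≠ 0) →
      tatC ε * |((discr F : ℤ) : ℝ)| ^ (1 / 2 - ε) ≤ hR F := fun F _ hF h => by
    refine le_trans ?_ (hR_ge_of_gap hF he (by linarith) h)
    exact mul_le_mul (min_le_left _ _) (Real.rpow_le_rpow_of_exponent_le (one_le_absR F) (by linarith))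
      (Real.rpow_nonneg (abs_nonneg _) _) (by have := gammaC_pos 2; positivity)
  set S : Set ℕ := {m | ∃ (F : IntermediateField ℚ ℂ) (_ : NumberField F), finrank ℚ F = 2 ∧
    (discr F).natAbs = m ∧ ∃ β ∈ Icc (1 - e) 1, xiFun F ((β : ℝ) : ℂ) = 0}
  by_cases hS : S.Nonempty
  swap
  · refine ⟨⊥, fun F iF hF _ => hgap F hF fun y hy hz => hS ⟨_, F, iF, hF, rfl, y, hy, hz⟩⟩
  obtain ⟨F₁, i₁, h₁, hd₁, β₁, hβ₁, hz₁⟩ := Nat.find_spec hS
  refine ⟨F₁, fun F iF hF hne => ?_⟩
  by_cases hz : ∀ y ∈ Icc (1 - e) 1, xiFun F (y : ℂ) ≠ 0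
  · exact hgap F hF hz
  push Not at hz
  obtain ⟨β, hβ, hzF⟩ := hz
  have hmin : (discr F₁).natAbs ≤ (discr F).natAbs :=
    hd₁.le.trans (Nat.find_min' hS ⟨F, iF, hF, rfl, β, hβ, hzF⟩)
  set d := |((discr F : ℤ) : ℝ)| with hd
  have hd1 : 1 ≤ d := one_le_absR F
  have hd0 : 0 < d := zero_lt_one.trans_le hd1
  have hde : 1 ≤ d ^ e := Real.one_le_rpow hd1 he.le
  have hsize : size F ≤ d ^ e / e := by
    have h4 := Real.log_le_sub_one_of_pos (Real.rpow_pos_of_pos hd0 e)
    rw [Real.log_rpow hd0, hd, ← natAbs_cast] at h4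
    rw [size, le_div_iff₀ he, hd, ← natAbs_cast]
    linarith
  have hsize₁ : size F₁ ≤ size F :=
    add_le_add le_rfl (Real.log_le_log (Nat.cast_pos.2 (Int.natAbs_pos.2 (discr_ne_zero F₁)))
      (Nat.cast_le.2 hmin))
  set η := pageC * e / (2 * d ^ e) with hη
  have hη0 : 0 < η := by have := pageC_pos; positivity
  have hL := one_le_size (K := F)
  have hL₁ := one_le_size (K := F₁)
  have hηpage : η ≤ pageC / (size F₁ + size F) := by
    rw [hη, show pageC * e / (2 * d ^ e) = pageC / (2 * (d ^ e / e)) by field_simp]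
    exact div_le_div_of_nonneg_left pageC_pos.le (by linarith) (by linarith)
  have hη2 : η ≤ 1 / 2400 :=
    (hηpage.trans (div_le_self pageC_pos.le (by linarith))).trans pageC_le
  have hβ₁0 : 0 < β₁ := by linarith [hβ₁.1]
  have hβ₁1 : β₁ < 1 := lt_of_le_of_ne hβ₁.2 fun h1 => by
    rw [h1, Complex.ofReal_one, xiFun_one] at hz₁
    exact (polarR_pos F₁).ne' (Complex.ofReal_eq_zero.1 hz₁)
  by_cases hclose : 1 - η ≤ β₁
  · -- `F` has no zero within `η` of `1`
    have hno : ∀ y ∈ Icc (1 - η) 1, xiFun F (y : ℂ) ≠ 0 := fun y hy hzy =>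
      hne (landau_page h₁ hF ⟨by linarith, hβ₁.2⟩ ⟨by linarith [hy.1], hy.2⟩ hz₁ hzy).symm
    refine le_trans ?_ (hR_ge_of_gap hF hη0 (by linarith) hno)
    rw [← hd]
    have hpow : 1 / 2 * d ^ (1 / 2 : ℝ) ≤ d ^ ((1 - η) / 2) := by
      rw [show (1 - η) / 2 = (1 / 2 : ℝ) + -(η / 2) by ring, Real.rpow_add hd0, mul_comm]
      refine mul_le_mul_of_nonneg_left ?_ (Real.rpow_nonneg hd0.le _)
      rw [Real.rpow_def_of_pos hd0]
      have hηL : η * Real.log d ≤ 1 / 2 := by
        have h1 : Real.log d ≤ size F := by rw [size, hd, ← natAbs_cast]; linarith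
        refine (mul_le_mul hηpage h1 (Real.log_nonneg hd1) (div_nonneg pageC_pos.le (by linarith))).trans ?_
        rw [div_mul_eq_mul_div, div_le_iff₀ (by linarith)]
        nlinarith [pageC_le, pageC_pos]
      refine le_trans ?_ (Real.exp_le_exp.2 (show -(1 / 4 : ℝ) ≤ Real.log d * -(η / 2) by linarith))
      linarith [Real.add_one_le_exp (-(1 / 4 : ℝ))]
    calc tatC ε * d ^ (1 / 2 - ε) ≤ pageC * e * gammaC 2 / 8 * (d ^ (1 / 2 : ℝ) / d ^ e) := by
          refine mul_le_mul ((min_le_right _ _).trans (min_le_left _ _)) ?_ (Real.rpow_nonneg hd0.le _)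
            (by have := gammaC_pos 2; have := pageC_pos; positivity)
          rw [← Real.rpow_sub hd0]
          exact Real.rpow_le_rpow_of_exponent_le hd1 (by linarith)
      _ = 1 / 2 * η * gammaC 2 * (1 / 2 * d ^ (1 / 2 : ℝ)) := by rw [hη]; ring
      _ ≤ _ := mul_le_mul_of_nonneg_left hpow (by have := gammaC_pos 2; positivity)
  · -- the compositum
    push Not at hclose
    obtain ⟨iM, iG, hdeg, hdM⟩ := compositum_bound h₁ hF
    let j₁ : F₁ →ₐ[ℚ] ↥(F₁ ⊔ F) := IntermediateField.inclusion le_sup_left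
    let j : F →ₐ[ℚ] ↥(F₁ ⊔ F) := IntermediateField.inclusion le_sup_right
    letI : Algebra F₁ ↥(F₁ ⊔ F) := j₁.toRingHom.toAlgebra
    letI : Algebra F ↥(F₁ ⊔ F) := j.toRingHom.toAlgebra
    haveI : IsScalarTower ℚ F₁ ↥(F₁ ⊔ F) := IsScalarTower.of_algebraMap_eq fun q => (j₁.commutes q).symm
    haveI : IsScalarTower ℚ F ↥(F₁ ⊔ F) := IsScalarTower.of_algebraMap_eq fun q => (j.commutes q).symm
    haveI : IsGalois F₁ ↥(F₁ ⊔ F) := IsGalois.tower_top_of_isGalois ℚ F₁ _
    haveI : IsGalois F ↥(F₁ ⊔ F) := IsGalois.tower_top_of_isGalois ℚ F _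
    have hzM : xiR ↥(F₁ ⊔ F) β₁ = 0 := by
      have h := xiFun_eq_zero_of_galois F₁ ↥(F₁ ⊔ F) hz₁
      rwa [xiFun_ofReal, Complex.ofReal_eq_zero] at h
    have hlow := (hR_lower ↥(F₁ ⊔ F) hβ₁0 hβ₁1 hzM.ge).trans (hR_le_polarR (N := 4) _ hdeg)
    change β₁ * (1 - β₁) * gammaC (finrank ℚ ↥(F₁ ⊔ F)) * _ ≤ _ at hlow
    have hb1 : 1 < 1 + e := by linarith
    have hup := polarR_le_mul F ↥(F₁ ⊔ F) (b := 1 + e) hb1 (by linarith)
    have hq : polarR F ≤ 4 * hR F := by
      have := polarR_le_hR F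
      rw [hF] at this
      norm_num at this
      exact this
    have hE := edgeConst_mono hb1 hdeg
    have hE0 := edgeConst_pos 4 hb1
    set dM := |((discr ↥(F₁ ⊔ F) : ℤ) : ℝ)| with hdM'
    have hM1 : 1 ≤ dM := one_le_absR _
    have hM0 : 0 < dM := zero_lt_one.trans_le hM1
    rw [← hd] at hup
    have hq0 : 0 ≤ (dM / d) ^ ((1 + e) / 2) := Real.rpow_nonneg (by positivity) _
    have h1 : 1 / 2 * η * gammaC 4 * dM ^ (β₁ / 2) ≤
        33 * ((dM / d) ^ ((1 + e) / 2) * edgeConst 4 (1 + e) * (4 * hR F)) := by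
      refine le_trans ?_ (hlow.trans (le_trans ?_ (mul_le_mul_of_nonneg_left
        (hup.trans (mul_le_mul (mul_le_mul_of_nonneg_left hE hq0) hq (polarR_pos F).le
          (mul_nonneg hq0 hE0.le))) (by norm_num : (0 : ℝ) ≤ 33))))
      · refine mul_le_mul_of_nonneg_right (mul_le_mul (mul_le_mul (by linarith [hβ₁.1]) (by linarith)
          hη0.le hβ₁0.le) (gammaC_anti hdeg) (gammaC_pos 4).le
          (mul_nonneg hβ₁0.le (by linarith))) (Real.rpow_nonneg hM0.le _)
      · norm_num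
    rw [Real.div_rpow hM0.le hd0.le] at h1
    have hMb : 0 < dM ^ ((1 + e) / 2) := Real.rpow_pos_of_pos hM0 _
    have hdb : 0 < d ^ ((1 + e) / 2) := Real.rpow_pos_of_pos hd0 _
    have h2 : 1 / 2 * η * gammaC 4 * (d ^ ((1 + e) / 2) * dM ^ (β₁ / 2 - (1 + e) / 2)) ≤
        132 * edgeConst 4 (1 + e) * hR F := by
      rw [Real.rpow_sub hM0]
      have h3 := mul_le_mul_of_nonneg_right h1 (div_nonneg hdb.le hMb.le)
      refine le_of_eq_of_le ?_ (h3.trans_eq ?_) <;> field_simp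
      ring
    have hdM8 : dM ≤ 256 * d ^ (8 : ℕ) := by
      have h := Nat.cast_le (α := ℝ).2 (hdM.trans (Nat.pow_le_pow_left
        (Nat.mul_le_mul_left 4 (Nat.mul_le_mul_right _ hmin)) 4))
      push_cast at h
      rw [natAbs_cast, natAbs_cast, ← hdM', ← hd] at h
      refine h.trans (le_of_eq ?_)
      ring
    have h4 : 1 / 256 * d ^ (-(8 * e)) ≤ dM ^ (β₁ / 2 - (1 + e) / 2) := by
      refine le_trans ?_ (Real.rpow_le_rpow_of_exponent_le hM1
        (show -e ≤ β₁ / 2 - (1 + e) / 2 by linarith [hβ₁.1]))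
      refine le_trans ?_ (Real.rpow_le_rpow_of_nonpos hM0 hdM8 (by linarith))
      rw [Real.mul_rpow (by norm_num) (by positivity), ← Real.rpow_natCast, ← Real.rpow_mul hd0.le,
        show ((8 : ℕ) : ℝ) * -e = -(8 * e) by push_cast; ring]
      refine mul_le_mul_of_nonneg_right ?_ (Real.rpow_nonneg hd0.le _)
      rw [show (1 : ℝ) / 256 = 256 ^ (-1 : ℝ) by rw [Real.rpow_neg_one]; norm_num]
      exact Real.rpow_le_rpow_of_exponent_le (by norm_num) (by linarith)
    have h5 : pageC * e * gammaC 4 / (4 * 256) * (d ^ ((1 + e) / 2) * d ^ (-(8 * e)) / d ^ e) ≤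
        132 * edgeConst 4 (1 + e) * hR F := by
      refine le_trans ?_ ((mul_le_mul_of_nonneg_left (mul_le_mul_of_nonneg_left h4 hdb.le)
        (by have := gammaC_pos 4; positivity)).trans h2)
      rw [hη]
      exact le_of_eq (by ring)
    have hexp : d ^ (1 / 2 - ε) ≤ d ^ ((1 + e) / 2) * d ^ (-(8 * e)) / d ^ e := by
      rw [← Real.rpow_add hd0, ← Real.rpow_sub hd0]
      exact Real.rpow_le_rpow_of_exponent_le hd1 (by linarith)
    refine le_trans (mul_le_mul ((min_le_right _ _).trans (min_le_right _ _)) hexp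
      (Real.rpow_nonneg hd0.le _) (by have := gammaC_pos 4; have := pageC_pos; positivity)) ?_
    refine le_of_mul_le_mul_left (le_trans (le_of_eq ?_) h5) (show 0 < 132 * edgeConst 4 (1 + e) by positivity)
    rw [← he']
    field_simp

/-- An imaginary quadratic field has regulator `1`. -/
theorem regulator_imaginary {F : Type} [Field F] [NumberField F] [IsTotallyComplex F]
    (hF : finrank ℚ F = 2) : Units.regulator F = 1 := by
  have hplaces := card_add_two_mul_card_eq_rank F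
  rw [hF] at hplaces
  have hr : nrRealPlaces F = 0 := IsTotallyComplex.nrRealPlaces_eq_zero F
  have hcard := card_eq_nrRealPlaces_add_nrComplexPlaces (K := F)
  have hrank : Units.rank F = Fintype.card (InfinitePlace F) - 1 := rfl
  obtain ⟨w'⟩ : Nonempty (InfinitePlace F) := inferInstance
  have e : {w // w ≠ w'} ≃ Fin (Units.rank F) := Fintype.equivFinOfCardEq (by
    rw [hrank, Fintype.card_subtype_compl, Fintype.card_subtype_eq])
  haveI : IsEmpty {w // w ≠ w'} := Fintype.card_eq_zero_iff.1 (by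
    rw [Fintype.card_subtype_compl, Fintype.card_subtype_eq]; omega)
  rw [Units.regulator_eq_det F w' e, Matrix.det_isEmpty, abs_one]

/-- The discriminant bound for imaginary quadratic fields with `h ≤ B`. -/
def imagBound (B : ℕ) : ℕ := ⌈((B : ℝ) / tatC (1 / 4)) ^ 4⌉₊

/-- **At most one exception to the effective class number problem.** -/
theorem exists_class_number_exception :
    ∃ F₁ : IntermediateField ℚ ℂ, ∀ (B : ℕ) (F : IntermediateField ℚ ℂ) [NumberField F]
      [IsTotallyComplex F], finrank ℚ F = 2 → F ≠ F₁ → classNumber F ≤ B →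
      (discr F).natAbs ≤ imagBound B := by
  obtain ⟨F₁, h⟩ := exists_exception (ε := 1 / 4) (by norm_num) (by norm_num)
  refine ⟨F₁, fun B F _ _ hF hne hB => ?_⟩
  have hc := tatC_pos (show (0 : ℝ) < 1 / 4 by norm_num)
  have h1 := h F hF hne
  rw [hR, regulator_imaginary hF, mul_one, show (1 / 2 : ℝ) - 1 / 4 = 1 / 4 by norm_num] at h1
  have h2 : |((discr F : ℤ) : ℝ)| ^ (1 / 4 : ℝ) ≤ B / tatC (1 / 4) := by
    rw [le_div_iff₀ hc, mul_comm]
    exact h1.trans (Nat.cast_le.2 hB)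
  refine Nat.cast_le.1 (le_trans ?_ (Nat.le_ceil _))
  rw [natAbs_cast]
  calc |((discr F : ℤ) : ℝ)| = (|((discr F : ℤ) : ℝ)| ^ (1 / 4 : ℝ)) ^ (4 : ℕ) := by
        rw [← Real.rpow_natCast, ← Real.rpow_mul (abs_nonneg _)]; norm_num
    _ ≤ _ := pow_le_pow_left₀ (Real.rpow_nonneg (abs_nonneg _) _) h2 4

end FA.Tatuzawa
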